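/-
S31 / S30 (Program A+), helper40: the Prelude Hecke algebra acts FAITHFULLY on the integral lattice
`L = Hom_par(Γ₀(N), ℤ)`.

* `parabolicHoms_complex_le_span`: every `ℂ`-valued parabolic hom is a `ℂ`-combination of
  `ℤ`-valued parabolic homs (rational structure);
* `heckeLat N ℓ`: `heckeHom N ℓ ℤ` restricted to `L`;
* `heckeAction N S : heckeAlgebra N 2 S →+* Module.End ℤ L`, with
  `heckeAction_T`, `heckeAction_U` (generators go to `heckeLat`) and `heckeAction_injective`;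
* `exists_heckeAction`: the same in existential form.
(The saturation statement is in the companion file `Saturation.lean`.)

Inputs: LANDED `S21.result` (Eichler–Shimura), `S16.H75.periodHomPair_formOp`,
`S41.H40.formOp_of_not_dvd / formOp_of_dvd`, `S41.H26.heckeHom_mem_parabolicHoms`,
`S22.H75.fg_Gamma0`.
-/
import Mathlib
import Fermat.Agent.S21
import Fermat.Agent.S16.H75.Gamma0Hecke
import Fermat.Agent.S22.H75.Gamma0FG
import Fermat.Agent.S41.H40.Lattice
import Fermat.Agent.S41.H40.FormsOfBetti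
import Fermat.Agent.S41.H26.ParabolicHecke

set_option autoImplicit false
open CongruenceSubgroup ModularCurve ModularCurve.Period
open scoped MatrixGroups
open Fermat.Agent.S16.H75 (heckeHom formOp)
open Fermat.Agent.S41.H40 (castC castC_apply castC_injective heckeHom_castC isParabolicHom_castC)

namespace Fermat.Agent.S31.H40

/-! ### The rational structure of the parabolic homs -/

/-- Every `ℂ`-valued parabolic hom of `Γ₀(N)` is a `ℂ`-linear combination of `ℤ`-valued parabolic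
homs. -/
theorem parabolicHoms_complex_le_span (N : ℕ) [NeZero N] :
    parabolicHoms ℂ (Gamma0 N) ℂ ≤
      Submodule.span ℂ (castC N '' {x | IsParabolicHom (Gamma0 N) x}) := by
  classical
  intro v hv
  have hv' : IsParabolicHom (Gamma0 N) v := hv
  have hfgΓ : Group.FG (Gamma0 N) := Fermat.Agent.S22.H75.fg_Gamma0 N
  have hfgA : AddGroup.FG (Additive (Gamma0 N)) := GroupFG.iff_add_fg.1 hfgΓ
  have hfgR : AddGroup.FG v.range :=
    AddGroup.fg_of_surjective (f := v.rangeRestrict) v.rangeRestrict_surjective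
  have hfin : Module.Finite ℤ v.range := Module.Finite.iff_addGroup_fg.2 hfgR
  have hfree : Module.Free ℤ v.range := Module.free_of_finite_type_torsion_free'
  let b := Module.Free.chooseBasis ℤ v.range
  let c : Module.Free.ChooseBasisIndex ℤ v.range → (Additive (Gamma0 N) →+ ℤ) := fun i =>
    (b.coord i).toAddMonoidHom.comp v.rangeRestrict
  have hc : ∀ i γ, c i γ = b.repr (v.rangeRestrict γ) i := fun i γ => rfl
  have hcpar : ∀ i, IsParabolicHom (Gamma0 N) (c i) := by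
    intro i γ hγ
    have h0 : v.rangeRestrict (Additive.ofMul γ) = 0 := by
      apply Subtype.ext
      exact hv' γ hγ
    rw [hc, h0, map_zero]
    rfl
  have hsum : v = ∑ i, ((b i : v.range) : ℂ) • castC N (c i) := by
    refine AddMonoidHom.ext fun γ => ?_
    have h1 := b.sum_repr (v.rangeRestrict γ)
    have h2 : ((v.rangeRestrict γ : v.range) : ℂ) = v γ := rfl
    rw [← h2, ← h1]
    rw [AddMonoidHom.finsetSum_apply]
    rw [AddSubgroup.val_finsetSum]
    refine Finset.sum_congr rfl fun i _ => ?_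
    rw [AddMonoidHom.smul_apply, castC_apply, hc, smul_eq_mul, mul_comm]
    rw [AddSubgroup.coe_zsmul, zsmul_eq_mul]
  rw [hsum]
  refine Submodule.sum_mem _ fun i _ => Submodule.smul_mem _ _ (Submodule.subset_span ?_)
  exact ⟨c i, hcpar i, rfl⟩

/-! ### Transport of endomorphisms of `S₂(Γ₀(N))` to the lattice -/

/-- The integral lattice `L = Hom_par(Γ₀(N), ℤ)`. -/
abbrev Lat (N : ℕ) : Submodule ℤ (Additive (Gamma0 N) →+ ℤ) := parabolicHoms ℤ (Gamma0 N) ℤ

/-- `heckeHom N ℓ ℤ` restricted to the lattice `L`. -/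
noncomputable def heckeLat (N : ℕ) (ℓ : Nat.Primes) : Module.End ℤ ↥(Lat N) :=
  LinearMap.restrict (heckeHom N ℓ ℤ).toIntLinearMap
    (fun _ hψ => Fermat.Agent.S41.H26.heckeHom_mem_parabolicHoms N ℓ hψ)

@[simp] theorem heckeLat_coe (N : ℕ) (ℓ : Nat.Primes) (ψ : ↥(Lat N)) :
    ((heckeLat N ℓ ψ : ↥(Lat N)) : Additive (Gamma0 N) →+ ℤ) =
      heckeHom N ℓ ℤ (ψ : Additive (Gamma0 N) →+ ℤ) := rfl

/-- `e` is the endomorphism of the lattice induced by `t` through the Eichler–Shimura map. -/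
def Pres (N : ℕ) [NeZero N] (t : Module.End ℂ (CuspForm (Gamma0 N) 2))
    (e : Module.End ℤ ↥(Lat N)) : Prop :=
  ∀ (ψ : ↥(Lat N)) (f g : CuspForm (Gamma0 N) 2),
    periodHomPair N (f, g) = castC N (ψ : Additive (Gamma0 N) →+ ℤ) →
      periodHomPair N (t f, t g) = castC N ((e ψ : ↥(Lat N)) : Additive (Gamma0 N) →+ ℤ)

theorem exists_preimage (N : ℕ) [NeZero N] (ψ : ↥(Lat N)) :
    ∃ f g : CuspForm (Gamma0 N) 2,
      periodHomPair N (f, g) = castC N (ψ : Additive (Gamma0 N) →+ ℤ) := by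
  obtain ⟨-, hrange⟩ := Fermat.Agent.S21.result N
  have hmem : castC N (ψ : Additive (Gamma0 N) →+ ℤ) ∈ LinearMap.range (periodHomPair N) := by
    rw [hrange]
    exact isParabolicHom_castC ψ.2
  obtain ⟨⟨f, g⟩, hfg⟩ := hmem
  exact ⟨f, g, hfg⟩

theorem Pres.unique {N : ℕ} [NeZero N] {t : Module.End ℂ (CuspForm (Gamma0 N) 2)}
    {e e' : Module.End ℤ ↥(Lat N)} (h : Pres N t e) (h' : Pres N t e') : e = e' := by
  refine LinearMap.ext fun ψ => ?_
  obtain ⟨f, g, hfg⟩ := exists_preimage N ψ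
  have h1 := h ψ f g hfg
  have h2 := h' ψ f g hfg
  rw [h1] at h2
  exact Subtype.ext (castC_injective N h2)

theorem pres_zero (N : ℕ) [NeZero N] : Pres N 0 0 := by
  intro ψ f g _
  rw [LinearMap.zero_apply, LinearMap.zero_apply, LinearMap.zero_apply, ← Prod.zero_eq_mk,
    map_zero, Submodule.coe_zero, map_zero]

theorem pres_one (N : ℕ) [NeZero N] : Pres N 1 1 := by
  intro ψ f g hfg
  exact hfg

theorem Pres.add {N : ℕ} [NeZero N] {t t' : Module.End ℂ (CuspForm (Gamma0 N) 2)}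
    {e e' : Module.End ℤ ↥(Lat N)} (h : Pres N t e) (h' : Pres N t' e') :
    Pres N (t + t') (e + e') := by
  intro ψ f g hfg
  rw [LinearMap.add_apply, LinearMap.add_apply, ← Prod.mk_add_mk, map_add, h ψ f g hfg,
    h' ψ f g hfg, LinearMap.add_apply, Submodule.coe_add, map_add]

theorem Pres.mul {N : ℕ} [NeZero N] {t t' : Module.End ℂ (CuspForm (Gamma0 N) 2)}
    {e e' : Module.End ℤ ↥(Lat N)} (h : Pres N t e) (h' : Pres N t' e') :
    Pres N (t * t') (e * e') := by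
  intro ψ f g hfg
  exact h (e' ψ) (t' f) (t' g) (h' ψ f g hfg)

theorem pres_algebraMap (N : ℕ) [NeZero N] (c : ℤ) :
    Pres N (algebraMap ℤ (Module.End ℂ (CuspForm (Gamma0 N) 2)) c)
      (algebraMap ℤ (Module.End ℤ ↥(Lat N)) c) := by
  intro ψ f g hfg
  rw [Module.algebraMap_end_apply, Module.algebraMap_end_apply, Module.algebraMap_end_apply,
    ← Prod.smul_mk, map_zsmul, hfg, Submodule.coe_smul, map_zsmul]

theorem pres_formOp (N : ℕ) [NeZero N] (ℓ : Nat.Primes) : Pres N (formOp N ℓ) (heckeLat N ℓ) := by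
  intro ψ f g hfg
  rw [Fermat.Agent.S16.H75.periodHomPair_formOp, hfg, heckeHom_castC, heckeLat_coe]

theorem exists_pres (N : ℕ) [NeZero N] (S : Set ℕ) (t : Module.End ℂ (CuspForm (Gamma0 N) 2))
    (ht : t ∈ CuspForm.heckeAlgebra N 2 S) : ∃ e : Module.End ℤ ↥(Lat N), Pres N t e := by
  induction ht using Algebra.adjoin_induction with
  | mem x hx =>
    rcases hx with ⟨ℓ, hℓ, hℓN, -, rfl⟩ | ⟨q, hqN, hq, -, rfl⟩
    · refine ⟨heckeLat N ⟨ℓ, hℓ⟩, ?_⟩
      have h := pres_formOp N ⟨ℓ, hℓ⟩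
      have h2 : formOp N ⟨ℓ, hℓ⟩ = CuspForm.heckeTLin 2 hℓ hℓN :=
        LinearMap.ext fun g => Fermat.Agent.S41.H40.formOp_of_not_dvd hℓ hℓN g
      rwa [h2] at h
    · refine ⟨heckeLat N ⟨q, hq⟩, ?_⟩
      have h := pres_formOp N ⟨q, hq⟩
      have h2 : formOp N ⟨q, hq⟩ = CuspForm.heckeULin 2 hqN :=
        LinearMap.ext fun g => Fermat.Agent.S41.H40.formOp_of_dvd hq hqN g
      rwa [h2] at h
  | algebraMap c => exact ⟨_, pres_algebraMap N c⟩
  | add x y _ _ hx hy =>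
    obtain ⟨e, he⟩ := hx
    obtain ⟨e', he'⟩ := hy
    exact ⟨e + e', he.add he'⟩
  | mul x y _ _ hx hy =>
    obtain ⟨e, he⟩ := hx
    obtain ⟨e', he'⟩ := hy
    exact ⟨e * e', he.mul he'⟩

/-- If `t` induces `0` on the lattice then `t = 0` (Eichler–Shimura + rational structure). -/
theorem eq_zero_of_pres_zero {N : ℕ} [NeZero N] {t : Module.End ℂ (CuspForm (Gamma0 N) 2)}
    (h : Pres N t 0) : t = 0 := by
  obtain ⟨hinj, hrange⟩ := Fermat.Agent.S21.result N
  let K : Submodule ℂ (CuspForm (Gamma0 N) 2 × CuspForm (Gamma0 N) 2) :=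
    LinearMap.ker (LinearMap.prodMap t t)
  have hsub : castC N '' {x | IsParabolicHom (Gamma0 N) x} ⊆
      (Submodule.map (periodHomPair N) K : Set (Additive (Gamma0 N) →+ ℂ)) := by
    rintro _ ⟨x, hx, rfl⟩
    obtain ⟨f, g, hfg⟩ := exists_preimage N ⟨x, hx⟩
    refine ⟨(f, g), ?_, hfg⟩
    have h1 := h ⟨x, hx⟩ f g hfg
    rw [LinearMap.zero_apply, Submodule.coe_zero, map_zero] at h1
    have h2 : (t f, t g) = 0 := hinj (by rw [h1, map_zero])
    show LinearMap.prodMap t t (f, g) = 0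
    rw [LinearMap.prodMap_apply]
    exact h2
  have hle : Submodule.map (periodHomPair N) ⊤ ≤ Submodule.map (periodHomPair N) K := by
    rw [Submodule.map_top, hrange]
    exact (parabolicHoms_complex_le_span N).trans (Submodule.span_le.2 hsub)
  have hK : (⊤ : Submodule ℂ _) ≤ K :=
    (Submodule.map_le_map_iff_of_injective hinj _ _).1 hle
  refine LinearMap.ext fun f => ?_
  have h3 : (f, (0 : CuspForm (Gamma0 N) 2)) ∈ K := hK trivial
  have h4 : LinearMap.prodMap t t (f, (0 : CuspForm (Gamma0 N) 2)) = 0 := h3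
  rw [LinearMap.prodMap_apply] at h4
  exact (Prod.mk.inj h4).1

/-! ### The ring homomorphism `𝕋 → End_ℤ(L)` -/

/-- **(HA1)** The action of the Prelude Hecke algebra `heckeAlgebra N 2 S` on the lattice
`L = Hom_par(Γ₀(N), ℤ)`, obtained by transport through the Eichler–Shimura isomorphism. -/
noncomputable def heckeAction (N : ℕ) [NeZero N] (S : Set ℕ) :
    CuspForm.heckeAlgebra N 2 S →+* Module.End ℤ ↥(Lat N) where
  toFun t := (exists_pres N S t.1 t.2).choose
  map_one' := (exists_pres N S _ (1 : CuspForm.heckeAlgebra N 2 S).2).choose_spec.unique (pres_one N)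
  map_mul' a b := (exists_pres N S _ (a * b).2).choose_spec.unique
    ((exists_pres N S _ a.2).choose_spec.mul (exists_pres N S _ b.2).choose_spec)
  map_zero' := (exists_pres N S _ (0 : CuspForm.heckeAlgebra N 2 S).2).choose_spec.unique (pres_zero N)
  map_add' a b := (exists_pres N S _ (a + b).2).choose_spec.unique
    ((exists_pres N S _ a.2).choose_spec.add (exists_pres N S _ b.2).choose_spec)

theorem heckeAction_spec (N : ℕ) [NeZero N] (S : Set ℕ) (t : CuspForm.heckeAlgebra N 2 S) :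
    Pres N (t : Module.End ℂ (CuspForm (Gamma0 N) 2)) (heckeAction N S t) :=
  (exists_pres N S t.1 t.2).choose_spec

/-- Characterisation of `heckeAction`: if `per (f, g) = ψ` then `per (t f, t g) = Φ(t) ψ`. -/
theorem periodHomPair_heckeAction (N : ℕ) [NeZero N] (S : Set ℕ) (t : CuspForm.heckeAlgebra N 2 S)
    (ψ : ↥(Lat N)) (f g : CuspForm (Gamma0 N) 2)
    (hfg : periodHomPair N (f, g) = castC N (ψ : Additive (Gamma0 N) →+ ℤ)) :
    periodHomPair N ((t : Module.End ℂ (CuspForm (Gamma0 N) 2)) f,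
      (t : Module.End ℂ (CuspForm (Gamma0 N) 2)) g) =
      castC N ((heckeAction N S t ψ : ↥(Lat N)) : Additive (Gamma0 N) →+ ℤ) :=
  heckeAction_spec N S t ψ f g hfg

theorem heckeAction_T (N : ℕ) [NeZero N] (S : Set ℕ) {ℓ : ℕ} (hℓ : ℓ.Prime) (hℓN : ¬ ℓ ∣ N)
    (hℓS : ℓ ∉ S) :
    heckeAction N S (CuspForm.heckeAlgebra.T hℓ hℓN hℓS) = heckeLat N ⟨ℓ, hℓ⟩ := by
  refine (heckeAction_spec N S _).unique ?_
  have h := pres_formOp N ⟨ℓ, hℓ⟩
  have h2 : formOp N ⟨ℓ, hℓ⟩ = CuspForm.heckeTLin 2 hℓ hℓN :=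
    LinearMap.ext fun g => Fermat.Agent.S41.H40.formOp_of_not_dvd hℓ hℓN g
  rw [h2] at h
  exact h

theorem heckeAction_U (N : ℕ) [NeZero N] (S : Set ℕ) {q : ℕ} (hq : q.Prime) (hqN : q ∣ N)
    (hqS : q ∉ S) :
    heckeAction N S (CuspForm.heckeAlgebra.U hq hqN hqS) = heckeLat N ⟨q, hq⟩ := by
  refine (heckeAction_spec N S _).unique ?_
  have h := pres_formOp N ⟨q, hq⟩
  have h2 : formOp N ⟨q, hq⟩ = CuspForm.heckeULin 2 hqN :=
    LinearMap.ext fun g => Fermat.Agent.S41.H40.formOp_of_dvd hq hqN g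
  rw [h2] at h
  exact h

/-- Pointwise form of `heckeAction_T`. -/
theorem heckeAction_T_apply (N : ℕ) [NeZero N] (S : Set ℕ) {ℓ : ℕ} (hℓ : ℓ.Prime) (hℓN : ¬ ℓ ∣ N)
    (hℓS : ℓ ∉ S) (ψ : ↥(Lat N)) :
    ((heckeAction N S (CuspForm.heckeAlgebra.T hℓ hℓN hℓS) ψ : ↥(Lat N)) :
      Additive (Gamma0 N) →+ ℤ) = heckeHom N ⟨ℓ, hℓ⟩ ℤ (ψ : Additive (Gamma0 N) →+ ℤ) := by
  rw [heckeAction_T]
  rfl

/-- **Faithfulness**: the Hecke algebra embeds into `End_ℤ(L)`. -/
theorem heckeAction_injective (N : ℕ) [NeZero N] (S : Set ℕ) :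
    Function.Injective (heckeAction N S) := by
  rw [injective_iff_map_eq_zero]
  intro t ht
  have h := heckeAction_spec N S t
  rw [ht] at h
  exact Subtype.ext (eq_zero_of_pres_zero h)

/-- **(HA1)**, existential form. -/
theorem exists_heckeAction (N : ℕ) [NeZero N] (S : Set ℕ) :
    ∃ Φ : CuspForm.heckeAlgebra N 2 S →+* Module.End ℤ ↥(parabolicHoms ℤ (Gamma0 N) ℤ),
      Function.Injective Φ ∧
      (∀ (ℓ : ℕ) (hℓ : ℓ.Prime) (hℓN : ¬ ℓ ∣ N) (hℓS : ℓ ∉ S)
        (ψ : ↥(parabolicHoms ℤ (Gamma0 N) ℤ)),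
        ((Φ (CuspForm.heckeAlgebra.T hℓ hℓN hℓS) ψ : ↥(parabolicHoms ℤ (Gamma0 N) ℤ)) :
          Additive (Gamma0 N) →+ ℤ) = heckeHom N ⟨ℓ, hℓ⟩ ℤ (ψ : Additive (Gamma0 N) →+ ℤ)) ∧
      (∀ (q : ℕ) (hq : q.Prime) (hqN : q ∣ N) (hqS : q ∉ S)
        (ψ : ↥(parabolicHoms ℤ (Gamma0 N) ℤ)),
        ((Φ (CuspForm.heckeAlgebra.U hq hqN hqS) ψ : ↥(parabolicHoms ℤ (Gamma0 N) ℤ)) :
          Additive (Gamma0 N) →+ ℤ) = heckeHom N ⟨q, hq⟩ ℤ (ψ : Additive (Gamma0 N) →+ ℤ)) :=
  ⟨heckeAction N S, heckeAction_injective N S,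
    fun ℓ hℓ hℓN hℓS ψ => heckeAction_T_apply N S hℓ hℓN hℓS ψ,
    fun q hq hqN hqS ψ => by rw [heckeAction_U]; rfl⟩

end Fermat.Agent.S31.H40
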