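/-
S31 / S30 (Program A+), helper40: saturation of the Hecke algebra inside `End_ℤ(L)`.

* `exists_saturation_bound`: there is `c0 ≠ 0` such that `c0 • E ∈ Φ(𝕋)` for every `E ∈ End_ℤ(L)`
  some nonzero multiple of which lies in `Φ(𝕋)` (`Φ = heckeAction N S`);
* `exists_saturation`: **(HA2)** there is `c` such that, for all `n` and `f ∈ 𝕋`,
  `Φ f (L) ⊆ p ^ (n + c) L` implies `f ∈ p ^ n • 𝕋`.
-/
import Mathlib
import Fermat.Agent.S31.H40.HeckeLattice

set_option autoImplicit false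
open CongruenceSubgroup ModularCurve ModularCurve.Period
open scoped MatrixGroups
open Fermat.Agent.S16.H75 (heckeHom)

namespace Fermat.Agent.S31.H40

/-- Cancellation of a nonzero natural multiple in the lattice. -/
theorem lat_nsmul_cancel {N : ℕ} {m : ℕ} (hm : m ≠ 0) {a b : ↥(Lat N)} (h : m • a = m • b) :
    a = b := by
  apply Subtype.ext
  refine AddMonoidHom.ext fun γ => ?_
  have h0 : m • (a : Additive (Gamma0 N) →+ ℤ) = m • (b : Additive (Gamma0 N) →+ ℤ) :=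
    congrArg Subtype.val h
  have h1 := DFunLike.congr_fun h0 γ
  rw [AddMonoidHom.nsmul_apply, AddMonoidHom.nsmul_apply, nsmul_eq_mul, nsmul_eq_mul] at h1
  exact mul_left_cancel₀ (by exact_mod_cast hm) h1

instance instIsAddTorsionFreeLat (N : ℕ) : IsAddTorsionFree ↥(Lat N) :=
  ⟨fun _ hn _ _ h => lat_nsmul_cancel hn h⟩

instance instFiniteLat (N : ℕ) [NeZero N] : Module.Finite ℤ ↥(Lat N) :=
  Fermat.Agent.S41.H40.finite_parabolicHoms_int N

instance instFreeLat (N : ℕ) [NeZero N] : Module.Free ℤ ↥(Lat N) :=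
  Module.free_of_finite_type_torsion_free'

/-- The image of the Hecke algebra in `End_ℤ(L)`, as a `ℤ`-submodule. -/
noncomputable def heckeImage (N : ℕ) [NeZero N] (S : Set ℕ) : Submodule ℤ (Module.End ℤ ↥(Lat N)) :=
  LinearMap.range (heckeAction N S).toAddMonoidHom.toIntLinearMap

theorem mem_heckeImage {N : ℕ} [NeZero N] {S : Set ℕ} {E : Module.End ℤ ↥(Lat N)} :
    E ∈ heckeImage N S ↔ ∃ f : CuspForm.heckeAlgebra N 2 S, heckeAction N S f = E := Iff.rfl

/-- The saturation of the Hecke image. -/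
noncomputable def heckeSat (N : ℕ) [NeZero N] (S : Set ℕ) : Submodule ℤ (Module.End ℤ ↥(Lat N)) where
  carrier := {E | ∃ m : ℕ, m ≠ 0 ∧ m • E ∈ heckeImage N S}
  zero_mem' := ⟨1, one_ne_zero, by rw [smul_zero]; exact zero_mem _⟩
  add_mem' := by
    rintro E E' ⟨m, hm, hE⟩ ⟨m', hm', hE'⟩
    refine ⟨m * m', mul_ne_zero hm hm', ?_⟩
    have h1 : (m * m') • (E + E') = m' • (m • E) + m • (m' • E') := by
      rw [smul_add, mul_smul, mul_smul, smul_comm m m' E]
    rw [h1]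
    exact add_mem (Submodule.smul_of_tower_mem _ m' hE) (Submodule.smul_of_tower_mem _ m hE')
  smul_mem' := by
    rintro c E ⟨m, hm, hE⟩
    refine ⟨m, hm, ?_⟩
    rw [smul_comm]
    exact Submodule.smul_mem _ c hE

theorem mem_heckeSat {N : ℕ} [NeZero N] {S : Set ℕ} {E : Module.End ℤ ↥(Lat N)} :
    E ∈ heckeSat N S ↔ ∃ m : ℕ, m ≠ 0 ∧ m • E ∈ heckeImage N S := Iff.rfl

/-- A uniform denominator for the saturation of the Hecke image. -/
theorem exists_saturation_bound (N : ℕ) [NeZero N] (S : Set ℕ) :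
    ∃ c0 : ℕ, c0 ≠ 0 ∧ ∀ E ∈ heckeSat N S, c0 • E ∈ heckeImage N S := by
  classical
  have hnoeth : IsNoetherian ℤ (Module.End ℤ ↥(Lat N)) := inferInstance
  obtain ⟨s, hs⟩ := (IsNoetherian.noetherian (heckeSat N S) : (heckeSat N S).FG)
  have hex : ∀ E : Module.End ℤ ↥(Lat N), ∃ m : ℕ, m ≠ 0 ∧ (E ∈ heckeSat N S → m • E ∈ heckeImage N S) := by
    intro E
    by_cases hE : E ∈ heckeSat N S
    · obtain ⟨m, hm, hmE⟩ := hE
      exact ⟨m, hm, fun _ => hmE⟩
    · exact ⟨1, one_ne_zero, fun h => absurd h hE⟩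
  choose m hm0 hm using hex
  refine ⟨∏ E ∈ s, m E, Finset.prod_ne_zero_iff.2 fun E _ => hm0 E, ?_⟩
  have hle : heckeSat N S ≤ (heckeImage N S).comap
      ((∏ E ∈ s, m E) • (LinearMap.id : Module.End ℤ ↥(Lat N) →ₗ[ℤ] Module.End ℤ ↥(Lat N))) := by
    rw [← hs, Submodule.span_le]
    intro E hE
    have hEs : E ∈ heckeSat N S := by rw [← hs]; exact Submodule.subset_span hE
    obtain ⟨k, hk⟩ := Finset.dvd_prod_of_mem m hE
    show ((∏ E ∈ s, m E) • (LinearMap.id : Module.End ℤ ↥(Lat N) →ₗ[ℤ] Module.End ℤ ↥(Lat N))) E ∈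
      heckeImage N S
    rw [LinearMap.smul_apply, LinearMap.id_apply, hk, mul_comm, mul_smul]
    exact Submodule.smul_of_tower_mem _ k (hm E hEs)
  intro E hE
  exact hle hE

/-- If all values of `Φ f` are divisible by `m ≠ 0` then `Φ f = m • E` for an endomorphism `E`. -/
theorem exists_end_of_forall_dvd {N : ℕ} [NeZero N] {m : ℕ} (hm : m ≠ 0)
    (F : Module.End ℤ ↥(Lat N)) (hF : ∀ ψ : ↥(Lat N), ∃ φ : ↥(Lat N), F ψ = m • φ) :
    ∃ E : Module.End ℤ ↥(Lat N), F = m • E := by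
  choose φ hφ using hF
  let E0 : ↥(Lat N) →+ ↥(Lat N) :=
    { toFun := φ
      map_zero' := by
        apply lat_nsmul_cancel hm
        rw [← hφ, map_zero, smul_zero]
      map_add' := fun a b => by
        apply lat_nsmul_cancel hm
        rw [← hφ, map_add, hφ a, hφ b, smul_add] }
  refine ⟨E0.toIntLinearMap, LinearMap.ext fun ψ => ?_⟩
  rw [hφ]
  rfl

/-- **(HA2)** Saturation: there is `c` (depending on `N`, `S`, `p` only) such that for all `n` and
all `f` in the Hecke algebra, if `Φ f` maps `L` into `p ^ (n + c) L` then `f ∈ p ^ n • 𝕋`. -/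
theorem exists_saturation (N : ℕ) [NeZero N] (S : Set ℕ) (p : ℕ) (hp : p.Prime) :
    ∃ c : ℕ, ∀ (n : ℕ) (f : CuspForm.heckeAlgebra N 2 S),
      (∀ ψ : ↥(Lat N), ∃ φ : ↥(Lat N), heckeAction N S f ψ = (p ^ (n + c)) • φ) →
        ∃ f' : CuspForm.heckeAlgebra N 2 S, f = (p ^ n) • f' := by
  obtain ⟨c0, hc0, hsat⟩ := exists_saturation_bound N S
  obtain ⟨c, c1, hc1, hc0eq⟩ := Nat.exists_eq_pow_mul_and_not_dvd hc0 p hp.ne_one
  refine ⟨c, fun n f hf => ?_⟩
  obtain ⟨E, hE⟩ := exists_end_of_forall_dvd (pow_ne_zero (n + c) hp.ne_zero) _ hf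
  have hEsat : E ∈ heckeSat N S :=
    ⟨p ^ (n + c), pow_ne_zero _ hp.ne_zero, by rw [← hE]; exact ⟨f, rfl⟩⟩
  obtain ⟨f', hf'⟩ := mem_heckeImage.1 (hsat E hEsat)
  have h1 : c0 • f = (p ^ (n + c)) • f' := by
    apply heckeAction_injective N S
    rw [map_nsmul, map_nsmul, hf', hE, smul_comm]
  have h2 : c1 • f = (p ^ n) • f' := by
    have h3 : (p ^ c) • (c1 • f) = (p ^ c) • ((p ^ n) • f') := by
      rw [← mul_smul, ← mul_smul, ← hc0eq, h1, pow_add, mul_comm]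
    exact nsmul_right_injective (pow_ne_zero c hp.ne_zero) h3
  have hcop : IsCoprime (c1 : ℤ) ((p ^ n : ℕ) : ℤ) :=
    Nat.isCoprime_iff_coprime.2
      (Nat.Coprime.pow_right n ((Nat.Prime.coprime_iff_not_dvd hp).2 hc1).symm)
  obtain ⟨a, b, hab⟩ := hcop
  refine ⟨a • f' + b • f, ?_⟩
  calc f = (1 : ℤ) • f := (one_smul _ _).symm
    _ = (a * (c1 : ℤ) + b * ((p ^ n : ℕ) : ℤ)) • f := by rw [hab]
    _ = a • ((c1 : ℤ) • f) + b • (((p ^ n : ℕ) : ℤ) • f) := by
      rw [add_smul, mul_smul, mul_smul]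
    _ = a • ((p ^ n) • f') + b • ((p ^ n) • f) := by
      rw [natCast_zsmul, natCast_zsmul, h2]
    _ = (p ^ n) • (a • f' + b • f) := by
      rw [smul_add, smul_comm a, smul_comm b]

end Fermat.Agent.S31.H40
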